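/-
P-CFT / [HASSE] row HS-D (helper84): a Galois extension of number fields of odd prime degree is
unramified outside a finite set of primes containing the primes over `p`.
-/
import Fermat.Agent.H97.Hasse.Interfaces

set_option autoImplicit false

open NumberField IsDedekindDomain

namespace Fermat.Agent.H84.Hasse

/-- A prime of `𝓞 L` which does not contain the discriminant of `L` is unramified over `ℤ`. -/
theorem hsd_ramificationIdx_int_eq_one (L : Type) [Field L] [NumberField L]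
    (w : HeightOneSpectrum (𝓞 L))
    (hw : (((NumberField.discr L).natAbs : ℕ) : 𝓞 L) ∉ w.asIdeal) :
    w.asIdeal.ramificationIdx ℤ = 1 := by
  haveI := w.isPrime
  -- the rational prime under `w`
  have hne : w.asIdeal.under ℤ ≠ ⊥ := by
    intro h
    exact w.ne_bot (Ideal.eq_bot_of_comap_eq_bot h)
  haveI hprime : (w.asIdeal.under ℤ).IsPrime := Ideal.IsPrime.under ℤ w.asIdeal
  obtain ⟨ℓ, hℓ⟩ := (IsPrincipalIdealRing.principal (w.asIdeal.under ℤ)).principal
  have hℓspan : w.asIdeal.under ℤ = Ideal.span {ℓ} := hℓ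
  have hℓprime : Prime ℓ := by
    have h1 : (Ideal.span {ℓ}).IsPrime := hℓspan ▸ hprime
    have h0 : ℓ ≠ 0 := by
      rintro rfl
      apply hne
      rw [hℓspan]
      simp
    exact (Ideal.span_singleton_prime h0).mp h1
  have hℓmem : ((ℓ : ℤ) : 𝓞 L) ∈ w.asIdeal := by
    have : ℓ ∈ w.asIdeal.under ℤ := by
      rw [hℓspan]; exact Ideal.mem_span_singleton_self ℓ
    rw [Ideal.under_def, Ideal.mem_comap] at this
    simpa using this
  have hnd : ¬ ℓ ∣ NumberField.discr L := by
    intro hdvd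
    apply hw
    have h2 : ℓ ∣ ((NumberField.discr L).natAbs : ℤ) := (Int.dvd_natAbs).mpr hdvd
    obtain ⟨c, hc⟩ := h2
    have h3 : (((NumberField.discr L).natAbs : ℕ) : 𝓞 L) = ((ℓ : ℤ) : 𝓞 L) * ((c : ℤ) : 𝓞 L) := by
      have := congrArg (fun z : ℤ => ((z : ℤ) : 𝓞 L)) hc
      simpa using this
    rw [h3]
    exact Ideal.mul_mem_right _ _ hℓmem
  haveI hunr : Algebra.IsUnramifiedAt ℤ w.asIdeal :=
    (NumberField.not_dvd_discr_iff_forall_mem L (𝓞 L) hℓprime).mp hnd w.asIdeal w.isPrime hℓmem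
  exact Ideal.ramificationIdx_eq_one w.asIdeal ℤ

/-- **[HS-D]** -/
theorem unramSettingExists : Fermat.Agent.H97.Hasse.UnramSettingExistsStatement := by
  intro K _ _ L _ _ _ _ p hp hp2 hdeg
  classical
  set n : ℕ := (NumberField.discr L).natAbs * p with hn
  have hn0 : n ≠ 0 :=
    mul_ne_zero (Int.natAbs_ne_zero.mpr (NumberField.discr_ne_zero L)) hp.ne_zero
  have hI : (Ideal.span {(n : 𝓞 K)}) ≠ 0 := by
    intro h
    have h1 : (n : 𝓞 K) = 0 := by
      simpa [Ideal.span_singleton_eq_bot, Ideal.zero_eq_bot] using h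
    exact hn0 (by exact_mod_cast h1)
  have hmem : ∀ v : HeightOneSpectrum (𝓞 K),
      v ∈ (Ideal.finite_factors hI).toFinset ↔ (n : 𝓞 K) ∈ v.asIdeal := by
    intro v
    rw [Set.Finite.mem_toFinset, Set.mem_setOf_eq, Ideal.dvd_span_singleton]
  refine ⟨(Ideal.finite_factors hI).toFinset, hp, hp2, inferInstance, hdeg, ?_, ?_⟩
  · intro v hv
    rw [hmem, hn, Nat.cast_mul]
    exact Ideal.mul_mem_left _ _ hv
  · intro w hw
    rw [hmem] at hw
    haveI := w.isPrime
    have hwn : ((n : ℕ) : 𝓞 L) ∉ w.asIdeal := by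
      intro h
      apply hw
      show (n : 𝓞 K) ∈ w.asIdeal.under (𝓞 K)
      rw [Ideal.under_def, Ideal.mem_comap]
      simpa using h
    have hwd : (((NumberField.discr L).natAbs : ℕ) : 𝓞 L) ∉ w.asIdeal := by
      intro h
      apply hwn
      rw [hn, Nat.cast_mul]
      exact Ideal.mul_mem_right _ _ h
    have h1 := hsd_ramificationIdx_int_eq_one L w hwd
    have h2 : w.asIdeal.ramificationIdx (𝓞 K) ∣ w.asIdeal.ramificationIdx ℤ := by
      haveI : w.asIdeal.LiesOver (w.asIdeal.under (𝓞 K)) := ⟨rfl⟩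
      exact Ideal.ramificationIdx_above_dvd (R := ℤ) (S := 𝓞 K) (T := 𝓞 L)
        (q := w.asIdeal.under (𝓞 K)) (r := w.asIdeal)
    rw [h1] at h2
    exact Nat.dvd_one.mp h2

end Fermat.Agent.H84.Hasse
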